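import Fermat.Agent.S26.SpecCube

/-!
# Row S26, block CUBE, leaf C4 (curves generate): frozen interface (assembler helper478)

`Stmt.CurvesGenerate K` (SpecCube.lean) is assembled in `C4/Assembly.lean` from

* `Stmt.C4a` (owner helper730): through `0` there is a closed integral curve leaving any proper
  closed subset `B ∋ 0`;
* `Stmt.C4b` (owner helper27): normalisation of an integral proper curve (same statement as
  `H27.Stmt.C4b`, with `ffStr` of `SpecDeg.lean` in place of its verbatim copy `H27.ffK`);
* `Stmt.C4cSum`, `Stmt.C4cChain` (owner helper841): the sum `B + ι(C)` of an irreducible closed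
  subset and a pointed proper integral `K`-scheme, and the ascending chain condition for
  irreducible closed subsets of `A`;
* `Stmt.Integral` (SOFT:INT).

Only definitions here.  `ptOf p` is the point of the scheme underlying a `K`-point `p`.
-/

set_option autoImplicit false
universe u

open CategoryTheory CategoryTheory.Limits AlgebraicGeometry NeronModelInfra GoodReductionJacobian

namespace Fermat.Agent.S26.C4

noncomputable section

variable {K : Type u} [Field K]

/-- The point of `Y` underlying a `K`-point. -/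
def ptOf {Y : Scheme.{u}} {y : Y ⟶ Spec (CommRingCat.of K)} (p : KPt y) : Y :=
  p.1 (default : Spec (CommRingCat.of K))

/-- The composite of a `K`-point with a morphism over `K`. -/
def mapPt {Y Z : Scheme.{u}} {y : Y ⟶ Spec (CommRingCat.of K)} {z : Z ⟶ Spec (CommRingCat.of K)}
    (φ : Y ⟶ Z) (hφ : φ ≫ z = y) (p : KPt y) : KPt z :=
  ⟨p.1 ≫ φ, by rw [Category.assoc, hφ, p.2]⟩

/-- `Γ` is a curve over `K`: its function field has transcendence degree one over `K`
(`= H27.IsCurve`, the structure map being `ffStr` of `SpecDeg.lean`). -/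
def IsCurveOver {Γ : Scheme.{u}} [IsIntegral Γ] (γ : Γ ⟶ Spec (CommRingCat.of K)) : Prop :=
  letI := (ffStr γ).toAlgebra
  Algebra.trdeg K Γ.functionField = 1

namespace Stmt

variable (K) [IsAlgClosed K]

/-- **C4a.** In an (integral) abelian variety, for every proper closed subset `B` containing
`0` there is a closed integral curve through `0` which is not contained in `B`. -/
def C4a : Prop :=
  ∀ (X : AbVar K) [IsIntegral X.A] (B : Set X.A), IsClosed B → B ≠ Set.univ →
    ptOf X.zero ∈ B →
    ∃ (Γ : Scheme.{u}) (_ : IsIntegral Γ) (i : Γ ⟶ X.A),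
      IsClosedImmersion i ∧ IsCurveOver (i ≫ X.str) ∧ ptOf X.zero ∈ Set.range i ∧
        ¬ Set.range i ⊆ B

/-- **C4b.** Normalisation of an integral proper curve over an algebraically closed field
(the statement of `H27.Stmt.C4b`). -/
def C4b : Prop :=
  ∀ (Γ : Scheme.{u}) [IsIntegral Γ] (γ : Γ ⟶ Spec (CommRingCat.of K)) [IsProper γ],
    IsCurveOver γ →
    ∃ (C : Scheme.{u}) (c : C ⟶ Spec (CommRingCat.of K)) (ν : C ⟶ Γ),
      ν ≫ γ = c ∧ IsIntegral C ∧ IsProper c ∧ SmoothOfRelativeDimension 1 c ∧
        IsFinite ν ∧ Function.Surjective ν ∧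
        ∀ x : SchemeHomOver (𝟙 (Spec (CommRingCat.of K))) γ,
          ∃ y : SchemeHomOver (𝟙 (Spec (CommRingCat.of K))) c, y.1 ≫ ν = x.1

/-- **C4a + C4b.** For every proper closed subset `B ∋ 0` there is a pointed smooth proper
curve in `A` with a `K`-point whose image is not in `B`. -/
def C4ab : Prop :=
  ∀ (X : AbVar K) [IsIntegral X.A] (B : Set X.A), IsClosed B → B ≠ Set.univ →
    ptOf X.zero ∈ B → ∃ (Γ : X.PtdCurve) (p : KPt Γ.str), ptOf (Γ.image p) ∉ B

/-- **C4c, sums.**  For an irreducible closed subset `B ∋ 0` of `A` and a pointed proper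
integral `K`-scheme `ι : (C, c₀) → (A, 0)`, the set `B + ι(C)` (image of `B × C` under the
addition) is contained in an irreducible closed subset `B'` containing `B` and `ι(C)`, all of
whose `K`-points are sums of a `K`-point of `B` and the image of a `K`-point of `C`. -/
def C4cSum : Prop :=
  ∀ (X : AbVar K) (B : Set X.A), IsClosed B → IsIrreducible B → ptOf X.zero ∈ B →
    ∀ (C : Scheme.{u}) (c : C ⟶ Spec (CommRingCat.of K)) [IsProper c] [IsIntegral C]
      (ι : C ⟶ X.A) (hι : ι ≫ X.str = c) (c₀ : KPt c), c₀.1 ≫ ι = X.zero.1 →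
      ∃ B' : Set X.A, IsClosed B' ∧ IsIrreducible B' ∧ B ⊆ B' ∧ Set.range ι ⊆ B' ∧
        ∀ x : X.Pt, ptOf x ∈ B' →
          ∃ (b : X.Pt) (p : KPt c), ptOf b ∈ B ∧ x = X.law.mul (𝟙 _) b (mapPt ι hι p)

/-- **C4c, chains.**  Strictly increasing chains of irreducible closed subsets of an abelian
variety are finite. -/
def C4cChain : Prop :=
  ∀ X : AbVar K, WellFoundedGT (TopologicalSpace.IrreducibleCloseds X.A)

end Stmt

end

end Fermat.Agent.S26.C4
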