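import Fermat.Agent.S26.C4.KPoints

/-!
# Row S26, leaf C4: curves generate (assembly, helper478)

`curvesGenerate_of_ab : Stmt.Integral K → C4ab → C4cSum → C4cChain → Stmt.CurvesGenerate K`.

Proof.  Let `H ⊆ A(K)` be a subgroup containing the `K`-points of all pointed curves.  Among the
irreducible closed subsets `Z ∋ 0` all of whose `K`-points lie in `H` (e.g. `{0}`) choose a
maximal one (`C4cChain`).  If `Z ≠ A`, `C4ab` gives a pointed curve `Γ` with a `K`-point outside
`Z`, and `C4cSum` an irreducible closed `Z' ⊇ Z ∪ ι(Γ)` whose `K`-points are sums of `K`-points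
of `Z` and of `Γ`, hence lie in `H`: contradiction.
-/

set_option autoImplicit false
universe u

open CategoryTheory CategoryTheory.Limits AlgebraicGeometry NeronModelInfra GoodReductionJacobian
open TopologicalSpace

namespace Fermat.Agent.S26.C4

variable {K : Type u} [Field K]

theorem ptOf_image_mem_range {X : AbVar K} (Γ : X.PtdCurve) (p : KPt Γ.str) :
    ptOf (Γ.image p) ∈ Set.range Γ.ι :=
  ⟨ptOf p, rfl⟩

/-- The core of the assembly, for a single abelian variety. -/
theorem forall_mem_of_curves (X : AbVar K) [IsSeparated X.str]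
    [WellFoundedGT (IrreducibleCloseds X.A)]
    (hab : ∀ B : Set X.A, IsClosed B → IsIrreducible B → B ≠ Set.univ → ptOf X.zero ∈ B →
      ∃ (Γ : X.PtdCurve) (p : KPt Γ.str), ptOf (Γ.image p) ∉ B)
    (hsum : ∀ B : Set X.A, IsClosed B → IsIrreducible B → ptOf X.zero ∈ B →
      ∀ Γ : X.PtdCurve, ∃ B' : Set X.A, IsClosed B' ∧ IsIrreducible B' ∧ B ⊆ B' ∧
        Set.range Γ.ι ⊆ B' ∧ ∀ x : X.Pt, ptOf x ∈ B' →
          ∃ (b : X.Pt) (p : KPt Γ.str), ptOf b ∈ B ∧ x = X.law.mul (𝟙 _) b (Γ.image p))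
    (H : X.Pt → Prop) (h0 : H X.zero)
    (hmul : ∀ x y, H x → H y → H (X.law.mul (𝟙 _) x y))
    (hcurve : ∀ (Γ : X.PtdCurve) (p : KPt Γ.str), H (Γ.image p)) (x : X.Pt) : H x := by
  classical
  let 𝓑 : Set (IrreducibleCloseds X.A) :=
    {Z | ptOf X.zero ∈ (Z : Set X.A) ∧ ∀ x : X.Pt, ptOf x ∈ (Z : Set X.A) → H x}
  have hne : 𝓑.Nonempty := by
    refine ⟨⟨{ptOf X.zero}, isIrreducible_singleton, isClosed_singleton_ptOf X.zero⟩,
      Set.mem_singleton _, fun x hx => ?_⟩
    have hx' : ptOf x = ptOf X.zero := hx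
    rw [ptOf_injective hx']
    exact h0
  obtain ⟨Z, hZ, hmax⟩ := (wellFounded_gt (α := IrreducibleCloseds X.A)).has_min 𝓑 hne
  by_cases hZu : (Z : Set X.A) = Set.univ
  · exact hZ.2 x (hZu ▸ Set.mem_univ _)
  · exfalso
    obtain ⟨Γ, p, hp⟩ := hab Z Z.isClosed Z.isIrreducible hZu hZ.1
    obtain ⟨B', hB'c, hB'i, hZB', hΓB', hpts⟩ := hsum Z Z.isClosed Z.isIrreducible hZ.1 Γ
    let Z' : IrreducibleCloseds X.A := ⟨B', hB'i, hB'c⟩
    have hZ' : Z' ∈ 𝓑 := by
      refine ⟨hZB' hZ.1, fun y hy => ?_⟩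
      obtain ⟨b, q, hb, rfl⟩ := hpts y hy
      exact hmul _ _ (hZ.2 b hb) (hcurve Γ q)
    have hle : Z ≤ Z' := hZB'
    have hne' : Z ≠ Z' := by
      intro h
      apply hp
      have : ptOf (Γ.image p) ∈ (Z' : Set X.A) := hΓB' (ptOf_image_mem_range Γ p)
      rw [← h] at this
      exact this
    exact hmax Z' hZ' (lt_of_le_of_ne hle hne')

variable (K)

/-- **C4 (assembly).**  Curves generate, from the leaves `C4ab`, `C4cSum`, `C4cChain` and the
integrality of abelian varieties. -/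
theorem curvesGenerate_of_ab (hInt : Stmt.Integral K) (hab : Stmt.C4ab K)
    (hsum : Stmt.C4cSum K) (hchain : Stmt.C4cChain K) : Stmt.CurvesGenerate K := by
  intro X H h0 hmul _ hcurve x
  have : IsIntegral X.A := hInt X
  have : IsProper X.str := X.bundle.proper
  have := hchain X
  refine forall_mem_of_curves X (fun B hB _ hBu h0B => hab X B hB hBu h0B)
    (fun B hB hBi h0B Γ => ?_) H h0 hmul hcurve x
  have := Γ.proper
  have := Γ.integral
  exact hsum X B hB hBi h0B Γ.C Γ.str Γ.ι Γ.ι_str Γ.base Γ.base_zero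

end Fermat.Agent.S26.C4
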