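import Fermat.Agent.S26.C4.Assembly

/-!
# Row S26, leaf C4: `C4a + C4b ⇒ C4ab` and the final assembly (helper478)

* `exists_kpt_lift_of_isClosedImmersion` : a `K`-point whose underlying point lies in the range
  of a closed immersion lifts to it;
* `exists_kpt_mem_of_isOpen` : a nonempty open subset of a `K`-scheme locally of finite type
  (`K` algebraically closed) contains a `K`-point;
* `c4ab_of` : `C4a → C4b → C4ab`;
* `curvesGenerate_of` : `Stmt.Integral → C4a → C4b → C4cSum → C4cChain → Stmt.CurvesGenerate`.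
-/

set_option autoImplicit false
universe u

open CategoryTheory CategoryTheory.Limits AlgebraicGeometry NeronModelInfra GoodReductionJacobian
open TopologicalSpace

namespace Fermat.Agent.S26.C4

variable {K : Type u} [Field K]

/-- A `K`-point of `Y` whose underlying point lies in the range of a closed immersion
`i : Z ⟶ Y` lifts to a `K`-point of `Z`. -/
theorem exists_kpt_lift_of_isClosedImmersion {Y Z : Scheme.{u}}
    (y : Y ⟶ Spec (CommRingCat.of K)) (i : Z ⟶ Y) [IsClosedImmersion i] (x : KPt y)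
    (hx : ptOf x ∈ Set.range i) : ∃ g : KPt (i ≫ y), g.1 ≫ i = x.1 := by
  have hsurj : Function.Surjective (pullback.fst x.1 i) := by
    rw [← Set.range_eq_univ, Scheme.Pullback.range_fst]
    ext s
    simp only [Set.mem_preimage, Set.mem_univ, iff_true]
    rw [Subsingleton.elim s default]
    exact hx
  have : Surjective (pullback.fst x.1 i) := ⟨hsurj⟩
  have : IsIso (pullback.fst x.1 i) := isIso_of_isClosedImmersion_of_surjective _
  have hg : (inv (pullback.fst x.1 i) ≫ pullback.snd x.1 i) ≫ i = x.1 := by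
    rw [Category.assoc, ← pullback.condition, IsIso.inv_hom_id_assoc]
  exact ⟨⟨inv (pullback.fst x.1 i) ≫ pullback.snd x.1 i, by
    rw [← Category.assoc, hg, x.2]⟩, hg⟩

variable [IsAlgClosed K]

/-- The `K`-point with a given closed underlying point. -/
noncomputable def kptOfClosed {Y : Scheme.{u}} (y : Y ⟶ Spec (CommRingCat.of K))
    [LocallyOfFiniteType y] (a : Y) (ha : IsClosed ({a} : Set Y)) : KPt y :=
  ⟨pointOfClosedPoint y a ha, pointOfClosedPoint_comp y a ha⟩

@[simp]
theorem ptOf_kptOfClosed {Y : Scheme.{u}} (y : Y ⟶ Spec (CommRingCat.of K))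
    [LocallyOfFiniteType y] (a : Y) (ha : IsClosed ({a} : Set Y)) :
    ptOf (kptOfClosed y a ha) = a :=
  pointOfClosedPoint_apply y a ha _

/-- A nonempty locally closed subset of a `K`-scheme locally of finite type contains the point
underlying a `K`-point. -/
theorem exists_kpt_mem_of_isLocallyClosed {Y : Scheme.{u}} (y : Y ⟶ Spec (CommRingCat.of K))
    [LocallyOfFiniteType y] {U : Set Y} (hU : IsLocallyClosed U) (hne : U.Nonempty) :
    ∃ p : KPt y, ptOf p ∈ U := by
  have : JacobsonSpace Y := LocallyOfFiniteType.jacobsonSpace y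
  obtain ⟨a, haU, ha⟩ := nonempty_inter_closedPoints hne hU
  exact ⟨kptOfClosed y a ha, by rw [ptOf_kptOfClosed]; exact haU⟩

/-- A nonempty open subset of a `K`-scheme locally of finite type contains the point
underlying a `K`-point. -/
theorem exists_kpt_mem_of_isOpen {Y : Scheme.{u}} (y : Y ⟶ Spec (CommRingCat.of K))
    [LocallyOfFiniteType y] {U : Set Y} (hU : IsOpen U) (hne : U.Nonempty) :
    ∃ p : KPt y, ptOf p ∈ U :=
  exists_kpt_mem_of_isLocallyClosed y hU.isLocallyClosed hne

variable (K)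

/-- **C4a + C4b ⇒ C4ab.** -/
theorem c4ab_of (ha : Stmt.C4a K) (hb : Stmt.C4b K) : Stmt.C4ab K := by
  intro X _ B hB hBu h0
  obtain ⟨Γ, hΓ, i, hi, hcurve, h0i, hiB⟩ := ha X B hB hBu h0
  have : IsProper X.str := X.bundle.proper
  have : IsProper (i ≫ X.str) := inferInstance
  obtain ⟨C, c, ν, hν, hCint, hCprop, hCsm, -, hνsurj, hlift⟩ := hb Γ (i ≫ X.str) hcurve
  obtain ⟨g₀, hg₀⟩ := exists_kpt_lift_of_isClosedImmersion X.str i X.zero h0i
  obtain ⟨c₀, hc₀⟩ := hlift g₀
  let Γ' : X.PtdCurve :=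
    { C := C
      str := c
      proper := hCprop
      smooth := hCsm
      integral := hCint
      ι := ν ≫ i
      ι_str := by rw [Category.assoc, hν]
      base := c₀
      base_zero := by rw [← Category.assoc, hc₀, hg₀] }
  have hU : IsOpen ((ν ≫ i) ⁻¹' Bᶜ) := hB.isOpen_compl.preimage (ν ≫ i).continuous
  have hUne : ((ν ≫ i) ⁻¹' Bᶜ).Nonempty := by
    obtain ⟨_, ⟨g, rfl⟩, hg⟩ := Set.not_subset.mp hiB
    obtain ⟨z, rfl⟩ := hνsurj g
    exact ⟨z, hg⟩
  obtain ⟨p, hp⟩ := exists_kpt_mem_of_isOpen c hU hUne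
  exact ⟨Γ', p, hp⟩

/-- **C4 (final assembly).** -/
theorem curvesGenerate_of (hInt : Stmt.Integral K) (ha : Stmt.C4a K) (hb : Stmt.C4b K)
    (hsum : Stmt.C4cSum K) (hchain : Stmt.C4cChain K) : Stmt.CurvesGenerate K :=
  curvesGenerate_of_ab K hInt (c4ab_of K ha hb) hsum hchain

end Fermat.Agent.S26.C4
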