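import Fermat.Agent.S26.C4.Reduce
import Fermat.Agent.S26.H626.C4b

/-!
# Row S26, leaf C4: curves generate, unconditionally (assembler helper478)

`curvesGenerate K : Stmt.CurvesGenerate K` (the frozen statement of `SpecCube.lean`), from
`H687.integral` (SOFT:INT), `H730.c4a` (C4a), `H626.c4b` (C4b), `C4.H841.c4cSum`,
`C4.H841.c4cChain` (C4c) and the assembly `C4.curvesGenerate_of`.
-/

set_option autoImplicit false
universe u

namespace Fermat.Agent.S26.C4

/-- **C4.** A subgroup of `A(K)` containing the `K`-points of all pointed smooth proper curves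
through `0` is everything. -/
theorem curvesGenerate (K : Type u) [Field K] [IsAlgClosed K] :
    Fermat.Agent.S26.Stmt.CurvesGenerate K :=
  curvesGenerate_of_c4b K (H626.c4b K)

end Fermat.Agent.S26.C4
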