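import Fermat.Agent.S26.C4.Spec

/-!
# Row S26, leaf C4: `K`-points of schemes over a field (helper478)

* `kpt_hom_ext`, `ptOf_injective` : a `K`-point is determined by its underlying point;
* `isClosed_singleton_ptOf` : the point underlying a `K`-point of a separated `K`-scheme is closed;
* `ptOf_mapPt` : functoriality of the underlying point.
-/

set_option autoImplicit false
universe u

open CategoryTheory CategoryTheory.Limits AlgebraicGeometry NeronModelInfra GoodReductionJacobian

namespace Fermat.Agent.S26.C4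

variable {K : Type u} [Field K]

/-- A section `Spec K ⟶ Y` of `y : Y ⟶ Spec K` of the form `Spec.map φ ≫ Spec κ(a) ⟶ Y` is
determined by the point `a`. -/
theorem residueHom_ext {Y : Scheme.{u}} (y : Y ⟶ Spec (CommRingCat.of K)) (a : Y)
    (φ φ' : Y.residueField a ⟶ CommRingCat.of K)
    (hφ : (Spec.map φ ≫ Y.fromSpecResidueField a) ≫ y = 𝟙 _)
    (hφ' : (Spec.map φ' ≫ Y.fromSpecResidueField a) ≫ y = 𝟙 _) : φ = φ' := by
  obtain ⟨ψ, hψ⟩ : ∃ ψ : CommRingCat.of K ⟶ Y.residueField a,
      Spec.map ψ = Y.fromSpecResidueField a ≫ y :=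
    ⟨Spec.preimage (Y.fromSpecResidueField a ≫ y), Spec.map_preimage _⟩
  have h1 : ψ ≫ φ = 𝟙 _ := by
    apply Spec.map_injective
    rw [Spec.map_comp, hψ, ← Category.assoc, hφ, Spec.map_id]
  have h2 : ψ ≫ φ' = 𝟙 _ := by
    apply Spec.map_injective
    rw [Spec.map_comp, hψ, ← Category.assoc, hφ', Spec.map_id]
  have e1 : ∀ t : K, φ.hom (ψ.hom t) = t := fun t => by
    have := congrArg (fun f : CommRingCat.of K ⟶ CommRingCat.of K => f.hom t) h1
    simpa using this
  have e2 : ∀ t : K, φ'.hom (ψ.hom t) = t := fun t => by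
    have := congrArg (fun f : CommRingCat.of K ⟶ CommRingCat.of K => f.hom t) h2
    simpa using this
  have hinj : Function.Injective φ.hom := RingHom.injective _
  ext z
  have hz : ψ.hom (φ.hom z) = z := hinj (e1 _)
  calc φ.hom z = φ'.hom (ψ.hom (φ.hom z)) := (e2 _).symm
    _ = φ'.hom z := by rw [hz]

/-- Two sections of `Y ⟶ Spec K` with the same underlying point are equal. -/
theorem kpt_hom_ext {Y : Scheme.{u}} (y : Y ⟶ Spec (CommRingCat.of K))
    (f g : Spec (CommRingCat.of K) ⟶ Y) (hf : f ≫ y = 𝟙 _) (hg : g ≫ y = 𝟙 _)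
    (h : f (default : Spec (CommRingCat.of K)) = g (default : Spec (CommRingCat.of K))) :
    f = g := by
  have hd : (default : Spec (CommRingCat.of K)) = IsLocalRing.closedPoint K :=
    Subsingleton.elim _ _
  rw [hd] at h
  have ef := Scheme.descResidueField_stalkClosedPointTo_fromSpecResidueField K Y f
  have eg := Scheme.descResidueField_stalkClosedPointTo_fromSpecResidueField K Y g
  have eg' : Spec.map ((Y.residueFieldCongr h).hom ≫
      Scheme.descResidueField (Scheme.stalkClosedPointTo g)) ≫
        Y.fromSpecResidueField (f (IsLocalRing.closedPoint K)) = g := by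
    rw [Spec.map_comp, Category.assoc, Scheme.residueFieldCongr_fromSpecResidueField, eg]
  have key := residueHom_ext y (f (IsLocalRing.closedPoint K))
    (Scheme.descResidueField (Scheme.stalkClosedPointTo f))
    ((Y.residueFieldCongr h).hom ≫ Scheme.descResidueField (Scheme.stalkClosedPointTo g))
    (by rw [ef, hf]) (by rw [eg', hg])
  rw [← ef, ← eg', key]

/-- A `K`-point is determined by its underlying point. -/
theorem ptOf_injective {Y : Scheme.{u}} {y : Y ⟶ Spec (CommRingCat.of K)} :
    Function.Injective (ptOf (y := y)) := fun p q h =>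
  Subtype.ext (kpt_hom_ext y p.1 q.1 p.2 q.2 h)

theorem ptOf_mapPt {Y Z : Scheme.{u}} {y : Y ⟶ Spec (CommRingCat.of K)}
    {z : Z ⟶ Spec (CommRingCat.of K)} (φ : Y ⟶ Z) (hφ : φ ≫ z = y) (p : KPt y) :
    ptOf (mapPt φ hφ p) = φ (ptOf p) := rfl

theorem range_kpt {Y : Scheme.{u}} {y : Y ⟶ Spec (CommRingCat.of K)} (p : KPt y) :
    Set.range p.1 = {ptOf p} := by
  ext a
  constructor
  · rintro ⟨s, rfl⟩
    rw [Subsingleton.elim s default]
    rfl
  · rintro rfl
    exact ⟨default, rfl⟩

/-- A `K`-point of a separated `K`-scheme is a closed immersion. -/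
theorem isClosedImmersion_kpt {Y : Scheme.{u}} {y : Y ⟶ Spec (CommRingCat.of K)}
    [IsSeparated y] (p : KPt y) : IsClosedImmersion p.1 := by
  have : IsClosedImmersion (p.1 ≫ y) := by rw [p.2]; infer_instance
  exact IsClosedImmersion.of_comp p.1 y

/-- The point underlying a `K`-point of a separated `K`-scheme is closed. -/
theorem isClosed_singleton_ptOf {Y : Scheme.{u}} {y : Y ⟶ Spec (CommRingCat.of K)}
    [IsSeparated y] (p : KPt y) : IsClosed ({ptOf p} : Set Y) := by
  have := isClosedImmersion_kpt p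
  rw [← range_kpt]
  exact p.1.isClosedEmbedding.isClosed_range

end Fermat.Agent.S26.C4
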