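import Fermat.Agent.S26.C4.Bridge
import Fermat.Agent.S26.H126.GroupCalc
import Fermat.Agent.S26.H841.SumIrred

/-!
# Row S26, leaf C4c (sums): `C4.Stmt.C4cSum K` (helper841)

For an irreducible closed subset `B ∋ 0` of an abelian variety `A` over an algebraically closed
field and a pointed proper integral `K`-scheme `ι : (C, c₀) → (A, 0)`, the set
`B' := B + ι(C)` (image of `B × ι(C)` under the addition `m = H126.addHom`) is irreducible,
closed, contains `B` and `ι(C)`, and its `K`-points are sums of `K`-points of `B` and images of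
`K`-points of `C`.

Everything is a specialisation of `H841/SumIrred.lean` to `m := H126.addHom X.law`.
-/

set_option autoImplicit false
universe u

open CategoryTheory CategoryTheory.Limits AlgebraicGeometry NeronModelInfra GoodReductionJacobian

namespace Fermat.Agent.S26.C4.H841

variable {K : Type u} [Field K]

/-- The range of a `K`-point is the singleton of its underlying point. -/
theorem range_eq_singleton_ptOf {Y : Scheme.{u}} {y : Y ⟶ Spec (CommRingCat.of K)}
    (p : KPt y) : Set.range p.1 = {ptOf p} :=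
  range_kpt p

/-- Right unit law for the addition morphism. -/
theorem addHom_unit_right {A : Scheme.{u}} {f : A ⟶ Spec (CommRingCat.of K)}
    (G : RelativeGroupLaw K f) (h : f ≫ (H126.zeroSec G) ≫ f = (𝟙 A) ≫ f) :
    pullback.lift (𝟙 A) (f ≫ H126.zeroSec G) (by rw [Category.assoc]; exact h.symm) ≫
      H126.addHom G = 𝟙 A := by
  have h1 := H126.transl_eq_pairHom_comp_addHom G (G.one (𝟙 _))
  rw [H126.transl_one] at h1
  exact h1.symm

/-- Left unit law for the addition morphism (commutative law). -/
theorem addHom_unit_left {A : Scheme.{u}} {f : A ⟶ Spec (CommRingCat.of K)}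
    (G : RelativeGroupLaw K f) (hc : G.IsCommutative)
    (h : f ≫ (H126.zeroSec G) ≫ f = (𝟙 A) ≫ f) :
    pullback.lift (f ≫ H126.zeroSec G) (𝟙 A) (by rw [Category.assoc]; exact h) ≫
      H126.addHom G = 𝟙 A := by
  have h1 := H126.transl_eq_pairHom_comp_addHom' G hc (G.one (𝟙 _))
  rw [H126.transl_one] at h1
  exact h1.symm

variable (K) [IsAlgClosed K]

/-- **C4c (sums).** -/
theorem c4cSum : Stmt.C4cSum K := by
  intro X B hBc hBi h0B C c _ _ ι hι c₀ hc₀
  have : IsProper X.str := X.bundle.proper
  have : IsLocallyNoetherian X.A := LocallyOfFiniteType.isLocallyNoetherian X.str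
  have ho : X.zero.1 ≫ X.str = 𝟙 _ := X.zero.2
  have hm : H126.addHom X.law ≫ X.str = pullback.fst X.str X.str ≫ X.str :=
    H126.addHom_over X.law
  have hzero : X.str ≫ X.zero.1 ≫ X.str = 𝟙 X.A ≫ X.str := by
    rw [ho, Category.comp_id, Category.id_comp]
  have hunitr : pullback.lift (𝟙 X.A) (X.str ≫ X.zero.1)
      (by rw [Category.assoc, ho, Category.id_comp, Category.comp_id]) ≫
        H126.addHom X.law = 𝟙 X.A :=
    addHom_unit_right X.law hzero
  have hunitl : pullback.lift (X.str ≫ X.zero.1) (𝟙 X.A)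
      (by rw [Category.assoc, ho, Category.id_comp, Category.comp_id]) ≫
        H126.addHom X.law = 𝟙 X.A :=
    addHom_unit_left X.law X.comm hzero
  -- the image of `ι`
  have : IsProper (ι ≫ X.str) := by rw [hι]; infer_instance
  have : IsProper ι := IsProper.of_comp ι X.str
  have hΓc : IsClosed (Set.range ι) := ι.isClosedMap.isClosed_range
  have hΓi : IsIrreducible (Set.range ι) := by
    rw [← Set.image_univ]
    exact (IrreducibleSpace.isIrreducible_univ C).image ι ι.continuous.continuousOn
  have hoB : Set.range X.zero.1 ⊆ B := by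
    rw [range_kpt X.zero]
    exact Set.singleton_subset_iff.2 h0B
  have hoΓ : Set.range X.zero.1 ⊆ Set.range ι := by
    rintro _ ⟨s, rfl⟩
    refine ⟨c₀.1 s, ?_⟩
    rw [← Scheme.Hom.comp_apply, hc₀]
  refine ⟨S26.H841.sumSet X.str (H126.addHom X.law) B (Set.range ι),
    S26.H841.isClosed_sumSet X.str _ hm hBc hΓc,
    S26.H841.isIrreducible_sumSet X.str _ hBi hΓi hΓc,
    S26.H841.subset_sumSet_left X.str _ X.zero.1 ho hunitr hoΓ,
    S26.H841.subset_sumSet_right X.str _ X.zero.1 ho hunitl hoB, ?_⟩
  intro x hx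
  have hxs : Set.range x.1 ⊆ S26.H841.sumSet X.str (H126.addHom X.law) B (Set.range ι) := by
    rw [range_kpt x]
    exact Set.singleton_subset_iff.2 hx
  obtain ⟨q, r, hq, hr, hqB, hrΓ, hqr⟩ :=
    S26.H841.exists_kpoints_of_mem_sumSet X.str _ hm hBc hΓc x.1 x.2 hxs
  -- lift `r` to a `K`-point of `C`
  let rr : X.Pt := ⟨r, hr⟩
  have hrc : IsClosed ({ptOf rr} : Set X.A) := isClosed_singleton_ptOf rr
  have hfib : IsClosed (ι ⁻¹' {ptOf rr}) := hrc.preimage ι.continuous
  have hfibne : (ι ⁻¹' {ptOf rr}).Nonempty := by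
    obtain ⟨z, hz⟩ := hrΓ ⟨default, rfl⟩
    exact ⟨z, hz⟩
  obtain ⟨p, hp⟩ := exists_kpt_mem_of_isLocallyClosed c hfib.isLocallyClosed hfibne
  have hpr : mapPt ι hι p = rr := ptOf_injective (by rw [ptOf_mapPt]; exact hp)
  refine ⟨⟨q, hq⟩, p, hqB ⟨default, rfl⟩, ?_⟩
  rw [hpr]
  apply Subtype.ext
  rw [H126.law_mul_coe]
  exact hqr.symm

/-- Strictly increasing chains of irreducible closed subsets of a locally noetherian scheme
are finite. -/
theorem wellFoundedGT_irreducibleCloseds (Y : Scheme.{u}) [IsLocallyNoetherian Y] :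
    WellFoundedGT (TopologicalSpace.IrreducibleCloseds Y) := by
  let f : TopologicalSpace.IrreducibleCloseds Y → ℕ := fun Z =>
    S26.H841.ptCodim (Z.isIrreducible.genericPoint)
  have hgen : ∀ Z : TopologicalSpace.IrreducibleCloseds Y,
      IsGenericPoint Z.isIrreducible.genericPoint (Z : Set Y) := by
    intro Z
    have h := Z.isIrreducible.isGenericPoint_genericPoint_closure
    rwa [Z.isClosed.closure_eq] at h
  have hf : StrictAnti f := by
    intro Z Z' h
    have hle : (Z : Set Y) ⊆ (Z' : Set Y) := h.le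
    have hne : (Z : Set Y) ≠ (Z' : Set Y) := fun e => h.ne (SetLike.coe_injective e)
    exact S26.H841.ptCodim_lt (S26.H841.genericPoint_lt_of_ssubset (hgen Z) (hgen Z') hle hne)
  exact hf.wellFoundedGT

omit [IsAlgClosed K] in
/-- **C4c (chains).** -/
theorem c4cChain : Stmt.C4cChain K := by
  intro X
  have : IsProper X.str := X.bundle.proper
  have : IsLocallyNoetherian X.A := LocallyOfFiniteType.isLocallyNoetherian X.str
  exact wellFoundedGT_irreducibleCloseds X.A

end Fermat.Agent.S26.C4.H841
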