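import Fermat.Agent.S26.C4.Bridge
import Fermat.Agent.S26.C4.SumH841
import Fermat.Agent.S26.H730.C4a
import Fermat.Agent.S26.H687.Integral

/-!
# Row S26, leaf C4: `Stmt.CurvesGenerate` reduced to `C4b` (assembler helper478)

All the other inputs of the assembly are on main:
`H687.integral` (SOFT:INT), `H730.c4a` (C4a), `C4.H841.c4cSum`, `C4.H841.c4cChain` (C4c).
-/

set_option autoImplicit false
universe u

namespace Fermat.Agent.S26.C4

/-- **C4**, modulo the normalisation of curves `C4b`. -/
theorem curvesGenerate_of_c4b (K : Type u) [Field K] [IsAlgClosed K] (hb : Stmt.C4b K) :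
    Fermat.Agent.S26.Stmt.CurvesGenerate K :=
  curvesGenerate_of K (H687.integral K) (H730.c4a K) hb (H841.c4cSum K) (H841.c4cChain K)

end Fermat.Agent.S26.C4
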